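import Mathlib

/-!
# S41/EIS-GRP : a two-dimensional representation all of whose elements have the eigenvalue `1` is reducible      key `S41/EIS-GRP`  (~200 lines, Mathlib only)

`hfix` says `tr (ρ g) = 1 + det (ρ g)` for all `g` (H).  If `ρ g = 1` for all `g`: any `v ≠ 0`.  Otherwise `g₀` with `ρ g₀ ≠ 1`, `v₀ ≠ 0` fixed by `g₀`, `δ = det (ρ g₀)`.
* `δ = 1`: basis `(v₀, w)`, `ρ g₀ = [[1, β], [0, 1]]`, `β ≠ 0`.  For `h` with matrix `[[a, b], [c, d]]`: `tr (ρ (g₀ h)) = a + β c + d`, `det (ρ (g₀ h)) = det (ρ h)`; (H) for `g₀ h` and `h` gives `β c = 0`: `v₀` is a common eigenvector.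
* `δ ≠ 1`: `w ≠ 0` with `ρ g₀ w = δ w` (`det (ρ g₀ - δ) = 0`), basis `(v₀, w)`, `ρ g₀ = diag (1, δ)`.  (H) for `g₀ h`, `h`: `a + δ d = 1 + δ D`, `a + d = 1 + D`: `d = D`, `a = 1`, so `b c = 0` for every `h`.
  If `c₁ ≠ 0` for some `h₁` and `b₂ ≠ 0` for some `h₂` then `h₁ h₂` has matrix `[[1, b₂], [c₁, ·]]`, contradiction.  So `v₀` or `w` is a common eigenvector.
-/

set_option autoImplicit false

namespace Fermat.Agent.S41.Eis

theorem grpAux_H {k : Type*} [Field k] (M : Matrix (Fin 2) (Fin 2) k) (x : Fin 2 → k) (hx : x ≠ 0)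
    (h : M.mulVec x = x) : (M 0 0 - 1) * (M 1 1 - 1) = M 0 1 * M 1 0 := by
  have h0 := congrFun h 0
  have h1 := congrFun h 1
  simp only [Matrix.mulVec, dotProduct, Fin.sum_univ_two] at h0 h1
  by_cases hx0 : x 0 = 0
  · have hx1 : x 1 ≠ 0 := by
      intro h1'
      apply hx
      funext i
      fin_cases i
      · exact hx0
      · exact h1'
    apply mul_right_cancel₀ hx1
    linear_combination (M 0 0 - 1) * h1 - M 1 0 * h0
  · apply mul_right_cancel₀ hx0
    linear_combination (M 1 1 - 1) * h0 - M 0 1 * h1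

theorem grpAux_unip {k Γ : Type*} [Field k] [Group Γ] (M : Γ → Matrix (Fin 2) (Fin 2) k)
    (hmul : ∀ g h, M (g * h) = M g * M h)
    (hH : ∀ g, (M g 0 0 - 1) * (M g 1 1 - 1) = M g 0 1 * M g 1 0) (g₀ : Γ) (β : k) (hβ : β ≠ 0)
    (h00 : M g₀ 0 0 = 1) (h01 : M g₀ 0 1 = β) (h10 : M g₀ 1 0 = 0) (h11 : M g₀ 1 1 = 1) (h : Γ) :
    M h 1 0 = 0 := by
  have e1 := hH (g₀ * h)
  have e2 := hH h
  rw [hmul] at e1
  simp only [Matrix.mul_apply, Fin.sum_univ_two, h00, h01, h10, h11] at e1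
  have : β * M h 1 0 = 0 := by linear_combination e2 - e1
  exact (mul_eq_zero.1 this).resolve_left hβ

theorem grpAux_diag {k Γ : Type*} [Field k] [Group Γ] (M : Γ → Matrix (Fin 2) (Fin 2) k)
    (hmul : ∀ g h, M (g * h) = M g * M h)
    (hH : ∀ g, (M g 0 0 - 1) * (M g 1 1 - 1) = M g 0 1 * M g 1 0) (g₀ : Γ) (δ : k) (hδ : δ ≠ 1)
    (h00 : M g₀ 0 0 = 1) (h01 : M g₀ 0 1 = 0) (h10 : M g₀ 1 0 = 0) (h11 : M g₀ 1 1 = δ) :
    (∀ h, M h 1 0 = 0) ∨ (∀ h, M h 0 1 = 0) := by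
  have ha : ∀ h, M h 0 0 = 1 := by
    intro h
    have e1 := hH (g₀ * h)
    have e2 := hH h
    rw [hmul] at e1
    simp only [Matrix.mul_apply, Fin.sum_univ_two, h00, h01, h10, h11] at e1
    have : (δ - 1) * (M h 0 0 - 1) = 0 := by linear_combination e1 - δ * e2
    have h3 := (mul_eq_zero.1 this).resolve_left (sub_ne_zero.2 hδ)
    exact sub_eq_zero.1 h3
  have hbc : ∀ h, M h 0 1 * M h 1 0 = 0 := by
    intro h
    have e2 := hH h
    rw [ha h, sub_self, zero_mul] at e2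
    exact e2.symm
  by_contra hcon
  rw [not_or] at hcon
  obtain ⟨hc, hb⟩ := hcon
  rw [not_forall] at hc hb
  obtain ⟨h₁, hc₁⟩ := hc
  obtain ⟨h₂, hb₂⟩ := hb
  have hb₁ : M h₁ 0 1 = 0 := (mul_eq_zero.1 (hbc h₁)).resolve_right hc₁
  have hc₂ : M h₂ 1 0 = 0 := (mul_eq_zero.1 (hbc h₂)).resolve_left hb₂
  have e := hbc (h₁ * h₂)
  rw [hmul] at e
  simp only [Matrix.mul_apply, Fin.sum_univ_two, ha, hb₁, hc₂] at e
  have : M h₂ 0 1 * M h₁ 1 0 = 0 := by linear_combination e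
  rcases mul_eq_zero.1 this with h | h
  · exact hb₂ h
  · exact hc₁ h

/-- a basis from two independent vectors -/
theorem grpAux_basis {k V : Type*} [Field k] [AddCommGroup V] [Module k V]
    (h2 : Module.finrank k V = 2) (v w : V) (hv : v ≠ 0) (hw : ∀ c : k, w ≠ c • v) :
    ∃ b : Module.Basis (Fin 2) k V, b 0 = v ∧ b 1 = w := by
  have hli : LinearIndependent k ![v, w] := by
    rw [LinearIndependent.pair_iff]
    intro s t hst
    by_cases ht : t = 0
    · subst ht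
      rw [zero_smul, add_zero] at hst
      exact ⟨(smul_eq_zero.1 hst).resolve_right hv, rfl⟩
    · exfalso
      apply hw (-(t⁻¹ * s))
      have : t • w = -(s • v) := by rw [eq_neg_iff_add_eq_zero, add_comm]; exact hst
      calc w = t⁻¹ • (t • w) := by rw [smul_smul, inv_mul_cancel₀ ht, one_smul]
        _ = _ := by rw [this, smul_neg, smul_smul, neg_smul]
  refine ⟨basisOfLinearIndependentOfCardEqFinrank hli (by rw [h2]; rfl), ?_, ?_⟩
  · rw [coe_basisOfLinearIndependentOfCardEqFinrank]; rfl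
  · rw [coe_basisOfLinearIndependentOfCardEqFinrank]; rfl

/-- [S41/EIS-GRP] -/
theorem exists_common_eigenvector {k V Γ : Type*} [Field k] [AddCommGroup V] [Module k V]
    [Group Γ] (h2 : Module.finrank k V = 2) (ρ : Γ →* Module.End k V)
    (hfix : ∀ g, ∃ v : V, v ≠ 0 ∧ ρ g v = v) :
    ∃ v : V, v ≠ 0 ∧ ∀ g, ∃ c : k, ρ g v = c • v := by
  classical
  have hfd : Module.Finite k V := Module.finite_of_finrank_pos (by rw [h2]; norm_num)
  -- generalities for any basis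
  have hmulB : ∀ b : Module.Basis (Fin 2) k V, ∀ g h,
      LinearMap.toMatrix b b (ρ (g * h)) = LinearMap.toMatrix b b (ρ g) * LinearMap.toMatrix b b (ρ h) := by
    intro b g h
    rw [map_mul, LinearMap.toMatrix_mul]
  have hHB : ∀ b : Module.Basis (Fin 2) k V, ∀ g,
      (LinearMap.toMatrix b b (ρ g) 0 0 - 1) * (LinearMap.toMatrix b b (ρ g) 1 1 - 1) =
        LinearMap.toMatrix b b (ρ g) 0 1 * LinearMap.toMatrix b b (ρ g) 1 0 := by
    intro b g
    obtain ⟨v, hv, hgv⟩ := hfix g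
    apply grpAux_H _ (b.repr v)
    · intro h0
      apply hv
      apply b.repr.injective
      rw [map_zero]
      exact DFunLike.coe_injective h0
    · rw [LinearMap.toMatrix_mulVec_repr, hgv]
  have hcol : ∀ (b : Module.Basis (Fin 2) k V) (g : Γ) (j : Fin 2),
      ρ g (b j) = LinearMap.toMatrix b b (ρ g) 0 j • b 0 + LinearMap.toMatrix b b (ρ g) 1 j • b 1 := by
    intro b g j
    conv_lhs => rw [← b.sum_repr (ρ g (b j)), Fin.sum_univ_two]
    rw [LinearMap.toMatrix_apply, LinearMap.toMatrix_apply]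
  by_cases hall : ∀ g, ρ g = 1
  · obtain ⟨v, hv⟩ : ∃ v : V, v ≠ 0 := by
      have : Nontrivial V := Module.nontrivial_of_finrank_pos (R := k) (by rw [h2]; norm_num)
      exact exists_ne 0
    exact ⟨v, hv, fun g => ⟨1, by rw [hall g, one_smul]; rfl⟩⟩
  rw [not_forall] at hall
  obtain ⟨g₀, hg₀⟩ := hall
  obtain ⟨v₀, hv₀, hgv₀⟩ := hfix g₀
  obtain ⟨w, hw⟩ : ∃ w : V, ∀ c : k, w ≠ c • v₀ := by
    by_contra hcon
    push Not at hcon
    have hle : (⊤ : Submodule k V) ≤ Submodule.span k {v₀} := by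
      intro x _
      obtain ⟨c, hc⟩ := hcon x
      rw [hc]
      exact Submodule.smul_mem _ _ (Submodule.mem_span_singleton_self v₀)
    have h3 := Submodule.finrank_mono hle
    rw [finrank_top, h2, finrank_span_singleton hv₀] at h3
    omega
  obtain ⟨b, hb0, hb1⟩ := grpAux_basis h2 v₀ w hv₀ hw
  set β := LinearMap.toMatrix b b (ρ g₀) 0 1 with hβ
  set δ := LinearMap.toMatrix b b (ρ g₀) 1 1 with hδ
  have hw1 : ρ g₀ w = β • v₀ + δ • w := by
    have := hcol b g₀ 1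
    rwa [hb0, hb1] at this
  have entries : ∀ (b' : Module.Basis (Fin 2) k V) (x y : k), b' 0 = v₀ →
      ρ g₀ (b' 1) = x • b' 0 + y • b' 1 →
      LinearMap.toMatrix b' b' (ρ g₀) 0 0 = 1 ∧ LinearMap.toMatrix b' b' (ρ g₀) 0 1 = x ∧
      LinearMap.toMatrix b' b' (ρ g₀) 1 0 = 0 ∧ LinearMap.toMatrix b' b' (ρ g₀) 1 1 = y := by
    intro b' x y h0 h1
    refine ⟨?_, ?_, ?_, ?_⟩
    · rw [LinearMap.toMatrix_apply, h0, hgv₀, ← h0, Module.Basis.repr_self]; simp
    · rw [LinearMap.toMatrix_apply, h1]; simp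
    · rw [LinearMap.toMatrix_apply, h0, hgv₀, ← h0, Module.Basis.repr_self]; simp
    · rw [LinearMap.toMatrix_apply, h1]; simp
  by_cases hδ1 : δ = 1
  · have hβ0 : β ≠ 0 := by
      intro h0
      apply hg₀
      apply b.ext
      intro i
      fin_cases i
      · show ρ g₀ (b 0) = b 0
        rw [hb0, hgv₀]
      · show ρ g₀ (b 1) = b 1
        rw [hb1, hw1, h0, hδ1, zero_smul, zero_add, one_smul]
    obtain ⟨e00, e01, e10, e11⟩ := entries b β δ hb0 (by rw [hb0, hb1]; exact hw1)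
    have hc := grpAux_unip (fun g => LinearMap.toMatrix b b (ρ g)) (hmulB b) (hHB b) g₀ β hβ0
      e00 e01 e10 (e11.trans hδ1)
    refine ⟨v₀, hv₀, fun g => ⟨LinearMap.toMatrix b b (ρ g) 0 0, ?_⟩⟩
    have := hcol b g 0
    rw [hc g, zero_smul, add_zero, hb0] at this
    exact this
  · set t := β / (δ - 1) with ht
    have hd : δ - 1 ≠ 0 := sub_ne_zero.2 hδ1
    set w' := w + t • v₀ with hw'
    have hw'1 : ρ g₀ w' = δ • w' := by
      rw [hw', map_add, map_smul, hgv₀, hw1, smul_add, smul_smul]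
      have : β + t = δ * t := by rw [ht]; field_simp; ring
      rw [← this, add_smul]
      abel
    have hw'ne : ∀ c : k, w' ≠ c • v₀ := by
      intro c hc
      apply hw (c - t)
      rw [sub_smul, ← hc, hw']
      abel
    obtain ⟨b', hb'0, hb'1⟩ := grpAux_basis h2 v₀ w' hv₀ hw'ne
    obtain ⟨e00, e01, e10, e11⟩ := entries b' 0 δ hb'0 (by rw [hb'1, zero_smul, zero_add]; exact hw'1)
    rcases grpAux_diag (fun g => LinearMap.toMatrix b' b' (ρ g)) (hmulB b') (hHB b') g₀ δ hδ1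
      e00 e01 e10 e11 with hc | hbz
    · refine ⟨v₀, hv₀, fun g => ⟨LinearMap.toMatrix b' b' (ρ g) 0 0, ?_⟩⟩
      have := hcol b' g 0
      rw [hc g, zero_smul, add_zero, hb'0] at this
      exact this
    · refine ⟨w', fun h0 => hw'ne 0 (by rw [h0, zero_smul]), fun g =>
        ⟨LinearMap.toMatrix b' b' (ρ g) 1 1, ?_⟩⟩
      have := hcol b' g 1
      rw [hbz g, zero_smul, zero_add, hb'1] at this
      exact this

end Fermat.Agent.S41.Eis
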