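import Fermat.Agent.S41.Eis.Red
import Fermat.Agent.S41.Eis.VC
import Fermat.Agent.S41.Eis.Grp
import Fermat.Agent.S42.Glue
import Fermat.Agent.Cheb.Interface

/-!
# S41/EIS2 : `E[p]` irreducible ⟹ some good prime `ℓ₀` has `a_{ℓ₀}(W) ≢ ℓ₀ + 1 mod p`      key `S41/EIS-TWO` (helper21)
-/

set_option autoImplicit false

open Polynomial WeierstrassCurve WeierstrassCurve.Affine WeierstrassCurve.Affine.Point

namespace Fermat.Agent.S41.Eis

local notation "Qbar" => AlgebraicClosure ℚ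
local notation "GQ" => (AlgebraicClosure ℚ ≃ₐ[ℚ] AlgebraicClosure ℚ)

/-- [S41/EIS-TWO] **EIS2** -/
theorem exists_prime_ap_ne (E : WeierstrassCurve ℚ) [E.IsElliptic] {W : WeierstrassCurve ℤ}
    (hW : W.IsIntegralModelOf E) {p : ℕ} (hp : p.Prime) (hp2 : p ≠ 2)
    (hirr : GaloisRepIsIrreducible (K := AlgebraicClosure ℚ) ℚ E p) (B : ℕ) (hB : B ≠ 0) :
    ∃ l : ℕ, l.Prime ∧ W.IsGoodPrimeFor l ∧ ¬ l ∣ B ∧ l ≠ p ∧
      ¬ (p : ℤ) ∣ W.apOfModel l - (l + 1) := by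
  classical
  obtain ⟨C, hC⟩ := hW
  have hirr' : GaloisRepIsIrreducible (K := AlgebraicClosure ℚ) ℚ
      (W.map (Int.castRingHom ℚ)) p := by
    rw [← hC]
    exact irreducible_variableChange E C p hirr
  by_contra hcon
  push Not at hcon
  obtain ⟨b, rfl⟩ : Odd p := hp.odd_of_ne_two hp2
  have : Fact (2 * b + 1).Prime := ⟨hp⟩
  -- the discriminant
  have hΔQ : (W.map (Int.castRingHom ℚ)).Δ ≠ 0 := by
    rw [← hC, variableChange_Δ]
    exact mul_ne_zero (pow_ne_zero _ (Units.ne_zero _)) (E.isUnit_Δ.ne_zero)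
  have hΔ : W.Δ ≠ 0 := by
    intro h
    apply hΔQ
    rw [map_Δ, h, _root_.map_zero]
  have hΔK : ((W.map (Int.castRingHom ℚ)).toAffine⁄Qbar).Δ ≠ 0 := by
    show ((W.map (Int.castRingHom ℚ)).map (algebraMap ℚ Qbar)).Δ ≠ 0
    rw [map_Δ]
    exact (_root_.map_ne_zero _).mpr hΔQ
  have hpK : (((2 * b + 1 : ℕ)) : Qbar) ≠ 0 := by exact_mod_cast hp.ne_zero
  have hcard := card_torsionBy ((W.map (Int.castRingHom ℚ)).toAffine⁄Qbar) hΔK
    (n := 2 * b + 1) ⟨b, rfl⟩ hpK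
  have hfinV : Finite (Submodule.torsionBy ℤ ((W.map (Int.castRingHom ℚ)).toAffine⁄Qbar).Point
      ((2 * b + 1 : ℕ) : ℤ)) :=
    (DivPoly.torsionBy_finite ((W.map (Int.castRingHom ℚ)).toAffine⁄Qbar) ⟨b, rfl⟩ hpK).1
  have h2 : Module.finrank (ZMod (2 * b + 1))
      (Submodule.torsionBy ℤ ((W.map (Int.castRingHom ℚ)).toAffine⁄Qbar).Point
        ((2 * b + 1 : ℕ) : ℤ)) = 2 := by
    have hmf : Module.Finite (ZMod (2 * b + 1))
      (Submodule.torsionBy ℤ ((W.map (Int.castRingHom ℚ)).toAffine⁄Qbar).Point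
        ((2 * b + 1 : ℕ) : ℤ)) := Module.Finite.of_finite
    have h := Module.natCard_eq_pow_finrank (K := ZMod (2 * b + 1))
      (V := Submodule.torsionBy ℤ ((W.map (Int.castRingHom ℚ)).toAffine⁄Qbar).Point
        ((2 * b + 1 : ℕ) : ℤ))
    rw [Nat.card_zmod, hcard] at h
    exact (Nat.pow_right_injective hp.two_le h).symm
  have hfin : GaloisFactorsThroughFiniteLevel
      (galoisRepModuleEnd (S := ℚ) (K := Qbar) (W.map (Int.castRingHom ℚ)).toAffine (2 * b + 1)) :=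
    S42.torsion_finiteLevel (W.map (Int.castRingHom ℚ)).toAffine ⟨b, rfl⟩ hp.ne_zero
  have hfix : ∀ g : GQ, ∃ v : Submodule.torsionBy ℤ
      ((W.map (Int.castRingHom ℚ)).toAffine⁄Qbar).Point ((2 * b + 1 : ℕ) : ℤ), v ≠ 0 ∧
      galoisRepModuleEnd (S := ℚ) (K := Qbar) (W.map (Int.castRingHom ℚ)).toAffine (2 * b + 1) g v
        = v := by
    intro g
    obtain ⟨l, A, σ, hl, hlS, hA, hσ, hρ⟩ := Cheb.exists_frobenius_eq _ hfin
      (B * (2 * b + 1) * W.Δ.natAbs).primeFactors g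
    have hne : B * (2 * b + 1) * W.Δ.natAbs ≠ 0 :=
      mul_ne_zero (mul_ne_zero hB hp.ne_zero) (Int.natAbs_ne_zero.mpr hΔ)
    have hnd : ¬ l ∣ B * (2 * b + 1) * W.Δ.natAbs := fun h =>
      hlS (Nat.mem_primeFactors.mpr ⟨hl, h, hne⟩)
    have hlB : ¬ l ∣ B := fun h => hnd ((h.mul_right _).mul_right _)
    have hlp : l ≠ 2 * b + 1 := by
      rintro rfl
      exact hnd ((Dvd.intro_left _ rfl).mul_right _)
    have hgood : W.IsGoodPrimeFor l := by
      intro h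
      exact hnd (Dvd.dvd.mul_left (Int.natCast_dvd.mp h) _)
    obtain ⟨P, hP0, hP⟩ := exists_fixed_point W hp hl hlp A hA hgood
      (hcon l hl hgood hlB hlp) σ hσ
    refine ⟨P, hP0, ?_⟩
    rw [← hρ]
    exact hP
  obtain ⟨v, hv0, hv⟩ := exists_common_eigenvector h2 _ hfix
  rcases hirr'.2 (Submodule.span (ZMod (2 * b + 1)) {v}) (by
    intro σ x hx
    obtain ⟨a, rfl⟩ := Submodule.mem_span_singleton.mp hx
    obtain ⟨c, hc⟩ := hv σ
    rw [galoisRepModuleEnd_apply] at hc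
    rw [smul_comm, hc]
    exact Submodule.smul_mem _ _ (Submodule.smul_mem _ _ (Submodule.mem_span_singleton_self v)))
    with h | h
  · exact hv0 ((Submodule.span_singleton_eq_bot).mp h)
  · have h1 := finrank_span_singleton (K := ZMod (2 * b + 1)) hv0
    rw [h, finrank_top, h2] at h1
    omega

end Fermat.Agent.S41.Eis
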