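import Fermat.Agent.Lib.DivPoly

/-!
# S41/EIS-CARD : an elliptic curve over an algebraically closed field has exactly `n ^ 2` points of `n`-torsion (`n` odd, invertible)      key `S41/EIS-CARD`  (~200 lines, only `Lib/DivPoly.lean`)

`≤` is `DivPoly.torsionBy_finite`.  `≥`: `f = num W n` (monic of degree `n²`: `monic_num`, `natDegree_num`), `g = den W n` (`natDegree_den_le`, `coeff_den`: degree `≤ n² - 1`, coefficient `n²`).
`h = f' g - f g'` has coefficient `n² · n² - (n² - 1) n² = n² ≠ 0` in degree `2 n² - 2`, so `h ≠ 0` and has finitely many roots.  `F` is infinite (`IsAlgClosed`): choose `c : F` with `c ≠ f(x₀)/g(x₀)` for all roots `x₀` of `h`.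
Then `f - c g` (monic of degree `n²`) is separable: a double root `x₀` has `f(x₀) = c g(x₀)`, `f'(x₀) = c g'(x₀)`, so `h(x₀) = 0`; `g(x₀) = 0` would give `f(x₀) = 0`, impossible (`exists_nonsingular`, `num_ne_zero_of_den_eq_zero`); so `c = f(x₀)/g(x₀)`, excluded.
So `f - c g` has `n²` distinct roots `x_i`.  `y_i` with `(x_i, y_i)` nonsingular (`exists_nonsingular`), `P_i`.  `g(x_i) ≠ 0`, so `n • P_i = (c, ·)` (`rep_nsmul` / `nsmul_eq_zero_iff`, `nsmul_eq_some`): `n • P_i = ± Q` for a fixed `Q` of abscissa `c` (two points with the same abscissa are equal or opposite: `Point`/`Y_eq_of_X_eq`); replace `P_i` by `- P_i`: `n • P_i = Q`.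
`i ↦ P_i - P_1` is injective (distinct abscissas) with values in the `n`-torsion.
-/

set_option autoImplicit false

open Polynomial WeierstrassCurve

namespace Fermat.Agent.S41.Eis

open Fermat.Agent.DivPoly

section aux

variable {F : Type*} [Field F]

lemma coeff_X_mul_derivative (p : F[X]) (k : ℕ) :
    (X * derivative p).coeff k = (k : F) * p.coeff k := by
  cases k with
  | zero => simp
  | succ k =>
    rw [coeff_X_mul, coeff_derivative]
    push_cast
    ring

lemma LD_X_mul_derivative {p : F[X]} {d : ℕ} {c : F} (hp : LD p d c) :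
    LD (X * derivative p) d ((d : F) * c) := by
  refine ⟨?_, by rw [coeff_X_mul_derivative, hp.coeff]⟩
  rw [natDegree_le_iff_coeff_eq_zero]
  intro N hN
  rw [coeff_X_mul_derivative, coeff_eq_zero_of_natDegree_lt (hp.le.trans_lt hN), mul_zero]

/-- the Wronskian of `f` (monic of degree `M + 1`) and `g` (degree `M`) is not zero -/
lemma wronskian_ne_zero {f g : F[X]} {M : ℕ} {a : F} (ha : a ≠ 0) (hf : LD f (M + 1) 1)
    (hg : LD g M a) : derivative f * g - f * derivative g ≠ 0 := by
  intro h0
  have h1 : LD (X * derivative f * g - f * (X * derivative g)) (M + 1 + M)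
      (((M + 1 : ℕ) : F) * 1 * a - 1 * ((M : F) * a)) :=
    ((LD_X_mul_derivative hf).mul hg).sub (hf.mul (LD_X_mul_derivative hg))
  have h2 : X * derivative f * g - f * (X * derivative g) = 0 := by
    linear_combination X * h0
  have h3 := h1.coeff
  rw [h2, coeff_zero] at h3
  apply ha
  push_cast at h3
  linear_combination -h3

/-- there is `c` such that `f - c g` has only simple roots -/
lemma exists_simple_roots [Infinite F] {f g : F[X]} {M : ℕ} {a : F} (ha : a ≠ 0)
    (hf : LD f (M + 1) 1) (hg : LD g M a) (hfg : ∀ x, g.eval x = 0 → f.eval x ≠ 0) :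
    ∃ c : F, ∀ x, (f - C c * g).eval x = 0 → (derivative (f - C c * g)).eval x ≠ 0 := by
  classical
  have hh := wronskian_ne_zero ha hf hg
  obtain ⟨c, hc⟩ := Infinite.exists_notMem_finset
    ((derivative f * g - f * derivative g).roots.toFinset.image
      (fun x => f.eval x / g.eval x))
  refine ⟨c, fun x h1 h2 => hc ?_⟩
  simp only [derivative_sub, derivative_mul, derivative_C, zero_mul, zero_add, eval_sub, eval_mul,
    eval_C] at h1 h2
  have hgx : g.eval x ≠ 0 := by
    intro h0
    apply hfg x h0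
    rw [h0] at h1
    linear_combination h1
  rw [Finset.mem_image]
  refine ⟨x, ?_, ?_⟩
  · rw [Multiset.mem_toFinset, mem_roots hh, IsRoot]
    simp only [eval_sub, eval_mul]
    linear_combination (g.eval x) * h2 - (eval x (derivative g)) * h1
  · rw [div_eq_iff hgx]
    linear_combination h1

/-- `f - c g` has `M + 1` distinct roots -/
lemma exists_card_roots [IsAlgClosed F] [DecidableEq F] {f g : F[X]} {M : ℕ} {a : F} (ha : a ≠ 0)
    (hf : LD f (M + 1) 1) (hg : LD g M a) (hfg : ∀ x, g.eval x = 0 → f.eval x ≠ 0) :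
    ∃ (c : F) (s : Finset F), s.card = M + 1 ∧ ∀ x ∈ s, f.eval x = c * g.eval x := by
  have : Infinite F := IsAlgClosed.instInfinite
  obtain ⟨c, hc⟩ := exists_simple_roots ha hf hg hfg
  have hLD : LD (f - C c * g) (M + 1) 1 := by
    have h1 : LD (C c * g) (M + 1) 0 := by
      have := (LD.const c).mul hg
      rw [zero_add] at this
      exact this.lower (Nat.lt_succ_self M)
    have := hf.sub h1
    rwa [sub_zero] at this
  have hne : f - C c * g ≠ 0 := by
    intro h0
    have := hLD.coeff
    rw [h0, coeff_zero] at this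
    exact zero_ne_one this
  have hdeg : (f - C c * g).natDegree = M + 1 :=
    le_antisymm hLD.le (le_natDegree_of_ne_zero (by rw [hLD.coeff]; exact one_ne_zero))
  have hnodup : (f - C c * g).roots.Nodup := by
    rw [Multiset.nodup_iff_count_le_one]
    intro x
    rw [count_roots]
    by_contra hlt
    rw [not_le, one_lt_rootMultiplicity_iff_isRoot hne] at hlt
    exact hc x hlt.1 hlt.2
  refine ⟨c, (f - C c * g).roots.toFinset, ?_, ?_⟩
  · rw [Multiset.toFinset_card_of_nodup hnodup, IsAlgClosed.card_roots_eq_natDegree, hdeg]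
  · intro x hx
    rw [Multiset.mem_toFinset, mem_roots hne, IsRoot] at hx
    simp only [eval_sub, eval_mul, eval_C] at hx
    linear_combination hx

end aux

/-- [S41/EIS-CARD] -/
theorem card_torsionBy {F : Type*} [Field F] [DecidableEq F] [IsAlgClosed F]
    (W : WeierstrassCurve.Affine F) (hΔ : W.Δ ≠ 0) {n : ℕ} (hodd : Odd n) (hn : (n : F) ≠ 0) :
    Nat.card (Submodule.torsionBy ℤ W.Point (n : ℤ)) = n ^ 2 := by
  obtain ⟨hfin, hle⟩ := torsionBy_finite W hodd hn
  refine le_antisymm hle ?_
  have hn0 : 0 < n := hodd.pos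
  have hn2 : 0 < n ^ 2 := by positivity
  obtain ⟨M, hM⟩ : ∃ M, n ^ 2 = M + 1 := ⟨n ^ 2 - 1, by omega⟩
  have hLD := LD_num_den W n
  have hf : LD (num W n) (M + 1) 1 := hM ▸ hLD.1
  have hg : LD (den W n) M ((n : F) ^ 2) := by
    have := hLD.2
    rwa [hM, Nat.add_sub_cancel] at this
  have hfg : ∀ x, (den W n).eval x = 0 → (num W n).eval x ≠ 0 := by
    intro x hx
    obtain ⟨y, hy⟩ := exists_nonsingular W hΔ x
    exact num_ne_zero_of_den_eq_zero W hy n hx
  obtain ⟨c, s, hs, hsc⟩ := exists_card_roots (pow_ne_zero 2 hn) hf hg hfg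
  obtain ⟨yc, hyc⟩ := exists_nonsingular W hΔ c
  -- a point of abscissa `x` with `n • P = Q`
  have key : ∀ x ∈ s, ∃ P : W.Point, n • P = Affine.Point.some c yc hyc ∧
      ∃ (y : F) (h : W.Nonsingular x y), P = Affine.Point.some x y h := by
    intro x hx
    obtain ⟨y, hy⟩ := exists_nonsingular W hΔ x
    have hgx : (den W n).eval x ≠ 0 := by
      intro h0
      apply hfg x h0
      rw [hsc x hx, h0, mul_zero]
    rcases hP : n • Affine.Point.some x y hy with _ | ⟨x', y', h'⟩
    · exact absurd ((nsmul_eq_zero_iff W hy n).mp hP) hgx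
    · have h1 := (nsmul_eq_some W hy n hP).2
      have hx' : x' = c := by
        rw [hsc x hx] at h1
        exact (mul_right_cancel₀ hgx h1).symm
      rcases (Affine.Point.X_eq_iff (h₁ := h') (h₂ := hyc)).mp hx' with h2 | h2
      · exact ⟨_, hP.trans h2, y, hy, rfl⟩
      · refine ⟨-Affine.Point.some x y hy, ?_, _, _, Affine.Point.neg_some hy⟩
        rw [smul_neg, hP, h2, neg_neg]
  choose! φ hφ1 hφ2 using key
  have hinj : Set.InjOn φ s := by
    intro x hx x' hx' hxx
    obtain ⟨y, h, e⟩ := hφ2 x hx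
    obtain ⟨y', h', e'⟩ := hφ2 x' hx'
    rw [e, e'] at hxx
    exact (Affine.Point.some.inj hxx).1
  obtain ⟨x₀, hx₀⟩ : s.Nonempty := by
    rw [← Finset.card_pos, hs]; exact Nat.succ_pos M
  have hsub : ((s.image (fun x => φ x - φ x₀) : Finset W.Point) : Set W.Point) ⊆
      (Submodule.torsionBy ℤ W.Point (n : ℤ) : Set W.Point) := by
    intro P hP
    rw [Finset.mem_coe, Finset.mem_image] at hP
    obtain ⟨x, hx, rfl⟩ := hP
    rw [coe_torsionBy]
    show n • (φ x - φ x₀) = 0
    rw [smul_sub, hφ1 x hx, hφ1 x₀ hx₀, sub_self]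
  have hcard : (s.image (fun x => φ x - φ x₀)).card = n ^ 2 := by
    rw [Finset.card_image_of_injOn, hs, hM]
    intro x hx x' hx' hxx
    exact hinj hx hx' (sub_left_injective hxx)
  have h3 := Set.ncard_le_ncard hsub (Set.toFinite _)
  rw [Set.ncard_coe_finset, hcard, ← Nat.card_coe_set_eq] at h3
  exact h3

end Fermat.Agent.S41.Eis
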