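import Fermat.Agent.Lib.DivPoly
import Fermat.Agent.Lib.Frobenius
import Fermat.Prelude.Def_FLTPrelim_Modularity
import Fermat.Prelude.Def_EllipticCurve_FrobeniusTrace

/-!
# S41/EIS-RED-b : `p ∣ a_ℓ(W) - (ℓ + 1)` ⟹ a Frobenius at `ℓ` fixes a nonzero point of `E[p]`

The statement is proved here from the three lemmas of `S41/EIS-RED-a` (taken as hypotheses), so that the
two keys never touch the same lines.
-/

set_option autoImplicit false

open Polynomial WeierstrassCurve WeierstrassCurve.Affine WeierstrassCurve.Affine.Point IsLocalRing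

namespace Fermat.Agent.S41.Eis

local notation "Qbar" => AlgebraicClosure ℚ
local notation "GQ" => (AlgebraicClosure ℚ ≃ₐ[ℚ] AlgebraicClosure ℚ)

/-- the congruence satisfied by a Frobenius element -/
theorem redb_sub_pow_mem_nonunits {A : ValuationSubring Qbar} {σ : GQ} {l : ℕ}
    (h : A.IsFrobeniusAt σ l) {a : Qbar} (ha : a ∈ A) : σ a - a ^ l ∈ A.nonunits := by
  have h1 := h.smul_residue_eq (IsLocalRing.residue A ⟨a, ha⟩)
  rw [← IsLocalRing.ResidueField.residue_smul, ← map_pow, ← sub_eq_zero, ← map_sub,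
    IsLocalRing.residue_eq_zero_iff] at h1
  rw [ValuationSubring.mem_nonunits_iff_exists_mem_maximalIdeal]
  exact ⟨_, h1⟩

theorem redb_map_mem {A : ValuationSubring Qbar} {σ : GQ} {l : ℕ}
    (h : A.IsFrobeniusAt σ l) {a : Qbar} (ha : a ∈ A) : σ a ∈ A := by
  have h1 := A.nonunits_subset (redb_sub_pow_mem_nonunits h ha)
  have h2 : σ a = (σ a - a ^ l) + a ^ l := by ring
  rw [h2]
  exact A.add_mem _ _ h1 (A.pow_mem ha l)

theorem redb_residue_map {A : ValuationSubring Qbar} {σ : GQ} {l : ℕ}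
    (h : A.IsFrobeniusAt σ l) (a : A) :
    residue A ⟨σ (a : Qbar), redb_map_mem h a.2⟩ = residue A a ^ l := by
  rw [← map_pow, ← sub_eq_zero, ← map_sub, IsLocalRing.residue_eq_zero_iff]
  have h1 := redb_sub_pow_mem_nonunits h a.2
  rw [ValuationSubring.mem_nonunits_iff_exists_mem_maximalIdeal] at h1
  obtain ⟨h2, h3⟩ := h1
  exact h3

theorem redb_charP (A : ValuationSubring Qbar) {l : ℕ} (hl : l.Prime)
    (hA : A.LiesOverPrime l) : CharP (IsLocalRing.ResidueField A) l := by
  have h1 : ((l : ℕ) : IsLocalRing.ResidueField A) = 0 := by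
    have h0 : ((l : A) : Qbar) ∈ A.nonunits := by
      have : ((l : A) : Qbar) = (l : Qbar) := by simp
      rw [this]; exact hA
    have := (IsLocalRing.residue_eq_zero_iff (l : A)).mpr
      (ValuationSubring.coe_mem_nonunits_iff.mp h0)
    rwa [map_natCast] at this
  exact (CharP.charP_iff_prime_eq_zero hl).mpr h1

/-- evaluation of the division polynomial of a base change -/
theorem redb_eval_half (W : WeierstrassCurve ℤ) {F : Type*} [CommRing F] (f : ℤ →+* F) (b : ℕ)
    (x : F) : (DivPoly.half (W.map f) b).eval x = aeval x (DivPoly.half W b) := by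
  rw [← DivPoly.map_half, eval_map, aeval_def]
  congr 1
  exact Subsingleton.elim _ _

/-- Cauchy: a point of order `p` on the reduction -/
theorem redb_exists_point (W : WeierstrassCurve ℤ) {b l : ℕ} (hb : (2 * b + 1).Prime) [Fact l.Prime]
    (hdvd : ((2 * b + 1 : ℕ) : ℤ) ∣ W.apOfModel l - (l + 1)) :
    ∃ (x y : ZMod l) (h : (W.map (Int.castRingHom (ZMod l))).toAffine.Nonsingular x y),
      (2 * b + 1) • Point.some x y h = 0 := by
  have h1 : W.apOfModel l - (l + 1) =
      - (Nat.card (W.map (Int.castRingHom (ZMod l))).toAffine.Point : ℤ) := by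
    simp only [apOfModel, traceOfFrobenius, reductionMod, WeierstrassCurve.card, Nat.card_zmod]
    ring
  rw [h1, dvd_neg, Int.natCast_dvd_natCast] at hdvd
  have : Fact (2 * b + 1).Prime := ⟨hb⟩
  obtain ⟨P, hP⟩ := exists_prime_addOrderOf_dvd_card' (2 * b + 1) hdvd
  have hP0 : P ≠ 0 := by
    rintro rfl
    rw [addOrderOf_zero] at hP
    have := hb.one_lt
    omega
  have hP1 : (2 * b + 1) • P = 0 := by rw [← hP]; exact addOrderOf_nsmul_eq_zero P
  rcases P with _ | ⟨x, y, h⟩
  · exact absurd rfl hP0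
  · exact ⟨x, y, h, hP1⟩

theorem redb_equation_iff (W : WeierstrassCurve ℤ) {F : Type*} [CommRing F] (f : ℤ →+* F) (x y : F) :
    (W.map f).toAffine.Equation x y ↔
      y ^ 2 + (W.a₁ : F) * x * y + (W.a₃ : F) * y =
        x ^ 3 + (W.a₂ : F) * x ^ 2 + (W.a₄ : F) * x + (W.a₆ : F) := by
  rw [Affine.equation_iff]
  simp only [map_a₁, map_a₂, map_a₃, map_a₄, map_a₆, eq_intCast]

theorem redb_negY (W : WeierstrassCurve ℤ) {F : Type*} [CommRing F] (f : ℤ →+* F) (x y : F) :
    (W.map f).toAffine.negY x y = -y - (W.a₁ : F) * x - (W.a₃ : F) := by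
  simp only [Affine.negY, map_a₁, map_a₃, eq_intCast]

/-- a root of a monic quadratic with coefficients in `A` lies in `A` -/
theorem redb_mem_of_quadratic (A : ValuationSubring Qbar) {y : Qbar} (c d : A)
    (h : y ^ 2 + (c : Qbar) * y = d) : y ∈ A := by
  rcases A.mem_or_inv_mem y with h1 | h1
  · exact h1
  · by_cases hy : y = 0
    · rw [hy]; exact A.zero_mem
    · have h2 : y = ((-c + d * ⟨y⁻¹, h1⟩ : A) : Qbar) := by
        push_cast
        field_simp
        linear_combination h
      rw [h2]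
      exact Subtype.property _

/-- **[S41/EIS-RED-b]**, from the lemmas of `S41/EIS-RED-a` -/
theorem exists_fixed_point_of_roots (W : WeierstrassCurve ℤ) {b l : ℕ} (hb : (2 * b + 1).Prime)
    (hl : l.Prime) (A : ValuationSubring Qbar) (hA : A.LiesOverPrime l)
    (root_lift : ∀ {ξ : ResidueField A}, aeval ξ (DivPoly.half W b) = 0 →
      ∃ x : A, aeval (x : Qbar) (DivPoly.half W b) = 0 ∧ residue A x = ξ)
    (root_inj : ∀ {x x' : A}, aeval (x : Qbar) (DivPoly.half W b) = 0 →
      aeval (x' : Qbar) (DivPoly.half W b) = 0 → residue A x = residue A x' → x = x')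
    (hΔ : W.Δ ≠ 0)
    (hdvd : ((2 * b + 1 : ℕ) : ℤ) ∣ W.apOfModel l - (l + 1)) (σ : GQ) (hσ : A.IsFrobeniusAt σ l) :
    ∃ P : Submodule.torsionBy ℤ ((W.map (Int.castRingHom ℚ)).toAffine⁄Qbar).Point (2 * b + 1 : ℕ),
      P ≠ 0 ∧ σ • P = P := by
  have : Fact l.Prime := ⟨hl⟩
  have := redb_charP A hl hA
  obtain ⟨xb, yb, hbar, hPb⟩ := redb_exists_point W hb hdvd
  let φ : ZMod l →+* ResidueField A := ZMod.castHom (dvd_refl l) (ResidueField A)
  let fK : ℤ →+* Qbar := (algebraMap ℚ Qbar).comp (Int.castRingHom ℚ)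
  have hWK : ((W.map (Int.castRingHom ℚ)).toAffine⁄Qbar) = (W.map fK).toAffine := rfl
  have hroot : aeval (φ xb) (DivPoly.half W b) = 0 := by
    have h1 := (DivPoly.odd_nsmul_eq_zero_iff _ hbar b).mp hPb
    have h2 := redb_eval_half W (Int.castRingHom (ZMod l)) b xb
    rw [h2] at h1
    have h3 := Polynomial.aeval_algHom_apply φ.toIntAlgHom xb (DivPoly.half W b)
    rw [h1, _root_.map_zero] at h3
    exact h3
  obtain ⟨x0, hx0, hx0r⟩ := root_lift hroot
  have hΔK : (W.map fK).toAffine.Δ ≠ 0 := by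
    rw [WeierstrassCurve.map_Δ, eq_intCast]
    exact_mod_cast hΔ
  obtain ⟨y0, hy0⟩ := DivPoly.exists_nonsingular (W.map fK).toAffine hΔK (x0 : Qbar)
  have heq0 := (redb_equation_iff W fK x0 y0).mp hy0.1
  have hy0A : y0 ∈ A := by
    refine redb_mem_of_quadratic A ((W.a₁ : A) * x0 + (W.a₃ : A))
      (x0 ^ 3 + (W.a₂ : A) * x0 ^ 2 + (W.a₄ : A) * x0 + (W.a₆ : A)) ?_
    push_cast
    linear_combination heq0
  have eqb := (redb_equation_iff W (Int.castRingHom (ZMod l)) xb yb).mp hbar.1
  have eqφ := congrArg φ eqb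
  simp only [map_add, map_mul, map_pow, map_intCast] at eqφ
  -- the good ordinate
  obtain ⟨y1, hy1, hy1r⟩ : ∃ y1 : A, (W.map fK).toAffine.Nonsingular (x0 : Qbar) (y1 : Qbar) ∧
      residue A y1 = φ yb := by
    have eqA : (⟨y0, hy0A⟩ : A) ^ 2 + (W.a₁ : A) * x0 * ⟨y0, hy0A⟩ + (W.a₃ : A) * ⟨y0, hy0A⟩ =
        x0 ^ 3 + (W.a₂ : A) * x0 ^ 2 + (W.a₄ : A) * x0 + (W.a₆ : A) := by
      apply Subtype.ext
      push_cast
      exact heq0
    have eqκ := congrArg (residue A) eqA
    simp only [map_add, map_mul, map_pow, map_intCast, hx0r] at eqκ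
    have key : (residue A ⟨y0, hy0A⟩ - φ yb) *
        (residue A ⟨y0, hy0A⟩ + φ yb + (W.a₁ : ResidueField A) * φ xb + (W.a₃ : ResidueField A)) = 0 := by
      linear_combination eqκ - eqφ
    rcases mul_eq_zero.mp key with h | h
    · exact ⟨⟨y0, hy0A⟩, hy0, sub_eq_zero.mp h⟩
    · refine ⟨-⟨y0, hy0A⟩ - (W.a₁ : A) * x0 - (W.a₃ : A), ?_, ?_⟩
      · have h1 := ((W.map fK).toAffine.nonsingular_neg (x0 : Qbar) y0).mpr hy0
        rw [redb_negY] at h1
        push_cast
        exact h1
      · simp only [map_sub, map_neg, map_mul, map_intCast, hx0r]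
        linear_combination -h
  have heq1 := (redb_equation_iff W fK x0 y1).mp hy1.1
  -- `σ` fixes the abscissa
  have hσx : σ (x0 : Qbar) = x0 := by
    have h1 : aeval (σ (x0 : Qbar)) (DivPoly.half W b) = 0 := by
      have h3 := Polynomial.aeval_algHom_apply (σ : Qbar →+* Qbar).toIntAlgHom (x0 : Qbar)
        (DivPoly.half W b)
      rw [hx0, _root_.map_zero] at h3
      exact h3
    have h2 := root_inj (x := ⟨σ (x0 : Qbar), redb_map_mem hσ x0.2⟩) (x' := x0) h1 hx0 (by
      rw [redb_residue_map hσ x0, hx0r, ← map_pow, ZMod.pow_card])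
    exact congrArg Subtype.val h2
  -- `σ` fixes the ordinate
  have hσy : σ (y1 : Qbar) = y1 := by
    have h1 := congrArg σ heq1
    simp only [map_add, map_mul, map_pow, map_intCast, hσx] at h1
    have key : (σ (y1 : Qbar) - y1) *
        (σ (y1 : Qbar) + y1 + (W.a₁ : Qbar) * x0 + (W.a₃ : Qbar)) = 0 := by
      linear_combination h1 - heq1
    rcases mul_eq_zero.mp key with h | h
    · exact sub_eq_zero.mp h
    · exfalso
      have h2 : (⟨σ (y1 : Qbar), redb_map_mem hσ y1.2⟩ : A) = -y1 - (W.a₁ : A) * x0 - (W.a₃ : A) := by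
        apply Subtype.ext
        push_cast
        linear_combination h
      have h3 := congrArg (residue A) h2
      rw [redb_residue_map hσ y1, hy1r, ← map_pow, ZMod.pow_card] at h3
      simp only [map_sub, map_neg, map_mul, map_intCast, hx0r, hy1r] at h3
      have h4 : φ yb = φ ((W.map (Int.castRingHom (ZMod l))).toAffine.negY xb yb) := by
        rw [redb_negY]
        simp only [map_sub, map_neg, map_mul, map_intCast]
        exact h3
      have h5 := φ.injective h4
      have h6 : -Point.some xb yb hbar = Point.some xb yb hbar := by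
        rw [Point.neg_some]
        simp only [Point.some.injEq, true_and]
        exact h5.symm
      have h7 : Point.some xb yb hbar + Point.some xb yb hbar = 0 := by
        nth_rewrite 1 [← h6]
        exact neg_add_cancel _
      have h8 : (2 * b + 1) • Point.some xb yb hbar = Point.some xb yb hbar := by
        rw [add_smul, one_smul, mul_comm, mul_smul, two_smul, h7, nsmul_zero, zero_add]
      rw [h8] at hPb
      exact Point.some_ne_zero hbar hPb
  have hP : (2 * b + 1) • (Point.some (x0 : Qbar) (y1 : Qbar) hy1 : (W.map fK).toAffine.Point) = 0 := by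
    rw [DivPoly.odd_nsmul_eq_zero_iff]
    exact (redb_eval_half W fK b x0).trans hx0
  refine ⟨⟨Point.some (x0 : Qbar) (y1 : Qbar) hy1, ?_⟩, ?_, ?_⟩
  · rw [Submodule.mem_torsionBy_iff, natCast_zsmul]
    exact hP
  · intro h
    exact Point.some_ne_zero hy1 (congrArg Subtype.val h)
  · apply Subtype.ext
    show σ • (Point.some (x0 : Qbar) (y1 : Qbar) hy1 :
      ((W.map (Int.castRingHom ℚ)).toAffine⁄Qbar).Point) = _
    rw [algEquiv_smul_def, Point.map_some]
    simp only [Point.some.injEq]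
    exact ⟨hσx, hσy⟩

end Fermat.Agent.S41.Eis
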