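import Fermat.Agent.S41.Eis.Card
import Fermat.Agent.S41.Eis.RedB
import Fermat.Agent.Lib.Frobenius
import Fermat.Prelude.Def_FLTPrelim_Modularity

/-!
# S41/EIS-RED : `p ∣ #W(𝔽_ℓ)` ⟹ a Frobenius at `ℓ` fixes a nonzero point of `E[p]`      keys `S41/EIS-RED-a` (`roots_*`, ~250 lines), `S41/EIS-RED-b` (`exists_fixed_point`, ~300 lines)

`K = ℚ̄`, `A` a valuation subring over `ℓ`, `κ` its residue field, `p = 2 b + 1`, `h = DivPoly.half W b ∈ ℤ[X]` (leading coefficient `- p`, degree `(p² - 1)/2`; `map_half`: `h.map f = half (W.map f) b`).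

## RED-a
`root_mem`: `h` has coefficients in `ℤ ⊆ A` and leading coefficient a unit of `A` (`p ≠ ℓ`: `Frob.int_not_mem_nonunits`), so a root is integral over `A`, hence in `A` (`Frob.mem_of_isIntegral`-style, `IsIntegrallyClosed`).
Over `K`: `card_torsionBy` + `DivPoly.half_eq_prod'`: `h_K = C (-p) * ∏_{x ∈ R} (X - C x)`, `#R = (p² - 1)/2`, `R ⊆ A`.  So the same identity in `A[X]`, and after `residue` in `κ[X]` and in `κ̄[X]` (`κ̄ = AlgebraicClosure κ`).
`root_lift`: a root of `h_κ` is the residue of some `x ∈ R`.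
`root_inj`: over `κ̄` (`Δ ≠ 0` because `ℓ ∤ Δ`, `p ≠ 0` in `κ`) `card_torsionBy` + `half_eq_prod'`: `h_κ̄` has `(p² - 1)/2` distinct roots; its roots are the images of `R`; so `R → κ̄` is injective.

## RED-b
`apOfModel ℓ = ℓ + 1 - #W̄(𝔽_ℓ)` (`Nat.card (ZMod ℓ) = ℓ`), so `p ∣ #W̄(𝔽_ℓ)`; Cauchy (`exists_prime_addOrderOf_dvd_card'`): `P̄ = (x̄, ȳ)` of order `p`; `odd_nsmul_eq_zero_iff`: `h(x̄) = 0` in `ZMod ℓ`, hence in `κ` (`ZMod ℓ →+* κ`).
`root_lift`: `x₀ ∈ A`, `h(x₀) = 0`, `res x₀ = x̄`.  `y₀ ∈ K` with `(x₀, y₀)` on `W_K` (`DivPoly.exists_nonsingular`); `y₀` is integral over `A` (monic quadratic), so in `A`; `res y₀` and `ȳ` are roots of the same monic quadratic over `κ`,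
 so `res y₀ = ȳ` or `res (negY x₀ y₀) = ȳ`: WLOG `res y₀ = ȳ`.  `P = (x₀, y₀)`, `p • P = 0`.
`σ x₀` is a root of `h` and `res (σ x₀) = (res x₀)^ℓ = x̄^ℓ = x̄` (`IsFrobeniusAt.smul_residue_eq`, `ZMod.pow_card`); `root_inj`: `σ x₀ = x₀`.  `σ y₀ ∈ {y₀, negY x₀ y₀}`, `res (σ y₀) = ȳ`;
 if `σ y₀ = negY x₀ y₀ ≠ y₀` then `ȳ = negY x̄ ȳ`, so `2 • P̄ = 0`, with `p • P̄ = 0`: `P̄ = 0`.  So `σ • P = P`.
-/

set_option autoImplicit false

open Polynomial WeierstrassCurve WeierstrassCurve.Affine WeierstrassCurve.Affine.Point IsLocalRing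

namespace Fermat.Agent.S41.Eis

local notation "Qbar" => AlgebraicClosure ℚ
local notation "GQ" => (AlgebraicClosure ℚ ≃ₐ[ℚ] AlgebraicClosure ℚ)

/-- an integer lies in `A` -/
theorem red_int_mem (A : ValuationSubring Qbar) (c : ℤ) : (c : Qbar) ∈ A :=
  Frob.mem_of_isIntegral A
    (by simpa using (isIntegral_algebraMap (R := ℤ) (A := Qbar) (x := c)))

/-- the valuation of an integer prime to `l` is `1` -/
theorem red_val_int (A : ValuationSubring Qbar) {l : ℕ} (hl : l.Prime) (hA : A.LiesOverPrime l)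
    {c : ℤ} (hc : ¬ (l : ℤ) ∣ c) : A.valuation (c : Qbar) = 1 := by
  have h1 : (c : Qbar) ∉ A.nonunits := Frob.int_not_mem_nonunits A hl hA hc
  rw [ValuationSubring.mem_nonunits_iff] at h1
  exact le_antisymm ((A.valuation_le_one_iff _).mpr (red_int_mem A c)) (not_lt.mp h1)

/-- an integer prime to `l` is nonzero in the residue field -/
theorem red_int_residue_ne (A : ValuationSubring Qbar) {l : ℕ} (hl : l.Prime)
    (hA : A.LiesOverPrime l) {c : ℤ} (hc : ¬ (l : ℤ) ∣ c) : ((c : ℤ) : ResidueField A) ≠ 0 := by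
  intro h0
  have h1 : residue A (c : A) = 0 := by rw [map_intCast]; exact h0
  rw [residue_eq_zero_iff] at h1
  have h2 : (((c : A) : A) : Qbar) ∈ A.nonunits := by
    rw [ValuationSubring.mem_nonunits_iff_exists_mem_maximalIdeal]
    exact ⟨(c : A).2, h1⟩
  apply Frob.int_not_mem_nonunits A hl hA hc
  simpa using h2

/-- `residue` of two elements agree iff the valuation of the difference is `< 1`. -/
theorem red_residue_eq_iff (A : ValuationSubring Qbar) (x y : A) :
    residue A x = residue A y ↔ A.valuation ((x : Qbar) - y) < 1 := by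
  rw [← sub_eq_zero, ← map_sub, residue_eq_zero_iff, ← ValuationSubring.mem_nonunits_iff,
    ValuationSubring.mem_nonunits_iff_exists_mem_maximalIdeal]
  constructor
  · intro h
    exact ⟨(x - y).2, h⟩
  · rintro ⟨h1, h2⟩
    have : (⟨(x : Qbar) - y, h1⟩ : A) = x - y := by ext; simp
    rwa [this] at h2

/-- the residue field of a valuation ring of `ℚ̄` is algebraically closed -/
theorem red_isAlgClosed (A : ValuationSubring Qbar) : IsAlgClosed (ResidueField A) := by
  refine IsAlgClosed.of_exists_root _ ?_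
  intro p hp hirr
  have hlift : p ∈ Polynomial.lifts (residue A) := by
    rw [Polynomial.mem_lifts]
    exact Polynomial.map_surjective _ residue_surjective p
  obtain ⟨q, hq, hdeg, hmon⟩ := Polynomial.lifts_and_natDegree_eq_and_monic hlift hp
  have hdeg' : (q.map (algebraMap A Qbar)).degree ≠ 0 := by
    rw [hmon.degree_map, Polynomial.degree_eq_natDegree hmon.ne_zero, hdeg]
    have := hirr.natDegree_pos
    exact_mod_cast this.ne'
  obtain ⟨x, hx⟩ := IsAlgClosed.exists_root _ hdeg'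
  have hint : IsIntegral A x := ⟨q, hmon, by rwa [IsRoot.def, eval_map] at hx⟩
  obtain ⟨y, rfl⟩ := (IsIntegrallyClosed.isIntegral_iff (R := A) (K := Qbar)).mp hint
  refine ⟨residue A y, ?_⟩
  rw [← hq, eval_map, Polynomial.eval₂_hom]
  rw [IsRoot.def, eval_map, Polynomial.eval₂_hom] at hx
  have : eval y q = 0 := (map_eq_zero_iff _ (FaithfulSMul.algebraMap_injective A Qbar)).mp hx
  rw [this, _root_.map_zero]

/-- `aeval` of `half` over `ℤ` is `eval` of the `half` of the base change -/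
theorem red_aeval_half (W : WeierstrassCurve ℤ) (b : ℕ) {F : Type*} [Field F] (x : F) :
    aeval x (DivPoly.half W b) = eval x (DivPoly.half (W.map (Int.castRingHom F)) b) := by
  rw [← DivPoly.map_half, eval_map, aeval_def]
  congr 1

/-- the factorisation of `half` over an algebraically closed field -/
theorem red_half_prod (W : WeierstrassCurve ℤ) (b : ℕ) {F : Type*} [Field F] [DecidableEq F]
    [IsAlgClosed F] (hΔ : ((W.Δ : ℤ) : F) ≠ 0) (hn : (((2 * b + 1 : ℕ) : ℤ) : F) ≠ 0) :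
    ∃ S : Finset F, S.card = 2 * b ^ 2 + 2 * b ∧ (∀ x, x ∈ S ↔ aeval x (DivPoly.half W b) = 0) ∧
      ∀ a : F, aeval a (DivPoly.half W b) = (((-(2 * b + 1 : ℕ) : ℤ)) : F) * ∏ x ∈ S, (a - x) := by
  set WF : WeierstrassCurve.Affine F := (W.map (Int.castRingHom F)).toAffine with hWF
  have hΔ' : WF.Δ ≠ 0 := by
    rw [hWF]
    change (W.map (Int.castRingHom F)).Δ ≠ 0
    rw [WeierstrassCurve.map_Δ]
    simpa using hΔ
  have hn1 : ((2 * b + 1 : ℕ) : F) ≠ 0 := by simpa using hn
  have hn2 : (2 * (b : F) + 1) ≠ 0 := by simpa using hn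
  have hcard := card_torsionBy WF hΔ' (n := 2 * b + 1) ⟨b, rfl⟩ hn1
  obtain ⟨h1, h2⟩ := DivPoly.half_eq_prod' WF hn2 hcard
  refine ⟨(DivPoly.half WF b).roots.toFinset, h1, ?_, ?_⟩
  · intro x
    rw [red_aeval_half, Multiset.mem_toFinset, mem_roots (DivPoly.half_ne_zero WF hn2)]
    rfl
  · intro a
    rw [red_aeval_half]
    change eval a (DivPoly.half WF b) = _
    conv_lhs => rw [h2]
    rw [eval_mul, eval_C, eval_prod]
    simp

variable (W : WeierstrassCurve ℤ) {b l : ℕ} (hb : (2 * b + 1).Prime) (hl : l.Prime)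
  (hlp : l ≠ 2 * b + 1) (A : ValuationSubring Qbar) (hA : A.LiesOverPrime l)

include hb hl hlp in
theorem red_not_dvd : ¬ (l : ℤ) ∣ ((2 * b + 1 : ℕ) : ℤ) := by
  rw [Int.natCast_dvd_natCast, Nat.prime_dvd_prime_iff_eq hl hb]
  exact hlp

include hb hl hlp hA in
/-- [S41/EIS-RED-a] -/
theorem root_mem {x : Qbar} (hx : aeval x (DivPoly.half W b) = 0) : x ∈ A := by
  have h0 : (2 * ((b : ℕ) : ℤ) + 1) ≠ 0 := by positivity
  have h1 : IsIntegral ℤ ((DivPoly.half W b).leadingCoeff • x) :=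
    isIntegral_leadingCoeff_smul _ x hx
  rw [DivPoly.leadingCoeff_half W h0] at h1
  have h2 := Frob.mem_of_isIntegral A h1
  have h3 : A.valuation (((-(2 * ((b : ℕ) : ℤ) + 1) : ℤ)) : Qbar) = 1 := by
    apply red_val_int A hl hA
    rw [Int.dvd_neg]
    have := red_not_dvd hb hl hlp
    push_cast at this
    exact this
  rw [← A.valuation_le_one_iff, zsmul_eq_mul, map_mul, h3, one_mul] at h2
  exact (A.valuation_le_one_iff _).mp h2

include hb hl hlp hA in
/-- [S41/EIS-RED-a] -/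
theorem root_lift (hΔ : W.Δ ≠ 0) {ξ : ResidueField A} (hξ : aeval ξ (DivPoly.half W b) = 0) :
    ∃ x : A, aeval (x : Qbar) (DivPoly.half W b) = 0 ∧ residue A x = ξ := by
  classical
  obtain ⟨a, rfl⟩ := residue_surjective ξ
  obtain ⟨S, -, hS, hprod⟩ := red_half_prod W b (F := Qbar) (by exact_mod_cast hΔ)
    (by exact_mod_cast (Nat.succ_ne_zero (2 * b)))
  have h1 : residue A (aeval a (DivPoly.half W b)) = residue A 0 := by
    have := aeval_algHom_apply (residue A).toIntAlgHom a (DivPoly.half W b)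
    rw [_root_.map_zero, ← hξ]
    exact this.symm
  have h2 : ((aeval a (DivPoly.half W b) : A) : Qbar) = aeval (a : Qbar) (DivPoly.half W b) := by
    have := aeval_algHom_apply A.subtype.toIntAlgHom a (DivPoly.half W b)
    exact this.symm
  have h5 : aeval (a : Qbar) (DivPoly.half W b)
      = (((-((2 * b + 1 : ℕ) : ℤ) : ℤ)) : Qbar) * ∏ x ∈ S, ((a : Qbar) - x) := hprod a
  rw [red_residue_eq_iff, h2, h5] at h1
  have h3 : A.valuation (((-((2 * b + 1 : ℕ) : ℤ) : ℤ)) : Qbar) = 1 := by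
    apply red_val_int A hl hA
    rw [Int.dvd_neg]
    exact red_not_dvd hb hl hlp
  simp only [ZeroMemClass.coe_zero, sub_zero] at h1
  rw [map_mul, h3, one_mul, map_prod] at h1
  have h4 : ∃ x ∈ S, A.valuation ((a : Qbar) - x) < 1 := by
    by_contra hcon
    push Not at hcon
    have : ∏ x ∈ S, A.valuation ((a : Qbar) - x) = 1 := by
      refine Finset.prod_eq_one fun x hx => le_antisymm ?_ (hcon x hx)
      rw [A.valuation_le_one_iff]
      exact A.sub_mem a.2 (root_mem W hb hl hlp A hA ((hS x).mp hx))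
    rw [this] at h1
    exact lt_irrefl _ h1
  obtain ⟨x, hx, hlt⟩ := h4
  have hxA := root_mem W hb hl hlp A hA ((hS x).mp hx)
  refine ⟨⟨x, hxA⟩, (hS x).mp hx, ?_⟩
  exact ((red_residue_eq_iff A a ⟨x, hxA⟩).mpr hlt).symm

include hb hl hlp hA in
/-- [S41/EIS-RED-a] -/
theorem root_inj (hgood : W.IsGoodPrimeFor l) {x x' : A}
    (hx : aeval (x : Qbar) (DivPoly.half W b) = 0) (hx' : aeval (x' : Qbar) (DivPoly.half W b) = 0)
    (h : residue A x = residue A x') : x = x' := by
  classical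
  have hΔ : W.Δ ≠ 0 := by
    intro h0
    apply hgood
    rw [h0]
    exact dvd_zero _
  have := red_isAlgClosed A
  obtain ⟨S, hScard, hS, -⟩ := red_half_prod W b (F := Qbar) (by exact_mod_cast hΔ)
    (by exact_mod_cast (Nat.succ_ne_zero (2 * b)))
  obtain ⟨T, hTcard, hT, -⟩ := red_half_prod W b (F := ResidueField A)
    (red_int_residue_ne A hl hA hgood) (red_int_residue_ne A hl hA (red_not_dvd hb hl hlp))
  let f : Qbar → ResidueField A := fun z => if hz : z ∈ A then residue A ⟨z, hz⟩ else 0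
  have hf : ∀ z : A, f z = residue A z := fun z => by simp [f]
  have hsub : T ⊆ S.image f := by
    intro ξ hξ
    obtain ⟨z, hz, rfl⟩ := root_lift W hb hl hlp A hA hΔ ((hT ξ).mp hξ)
    exact Finset.mem_image.mpr ⟨z, (hS _).mpr hz, hf z⟩
  have hcard : (S.image f).card = S.card := by
    apply le_antisymm Finset.card_image_le
    rw [hScard, ← hTcard]
    exact Finset.card_le_card hsub
  have hinj := Finset.card_image_iff.mp hcard
  have := hinj (Finset.mem_coe.mpr ((hS _).mpr hx)) (Finset.mem_coe.mpr ((hS _).mpr hx'))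
    (by rw [hf, hf, h])
  exact Subtype.ext this

include hb hl hlp hA in
/-- [S41/EIS-RED-b] -/
theorem exists_fixed_point (hgood : W.IsGoodPrimeFor l)
    (hdvd : ((2 * b + 1 : ℕ) : ℤ) ∣ W.apOfModel l - (l + 1)) (σ : GQ) (hσ : A.IsFrobeniusAt σ l) :
    ∃ P : Submodule.torsionBy ℤ ((W.map (Int.castRingHom ℚ)).toAffine⁄Qbar).Point (2 * b + 1 : ℕ),
      P ≠ 0 ∧ σ • P = P :=
  have hΔ : W.Δ ≠ 0 := fun h => hgood (by rw [h]; exact dvd_zero _)
  exists_fixed_point_of_roots W hb hl A hA (fun h => root_lift W hb hl hlp A hA hΔ h)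
    (fun h h' h'' => root_inj W hb hl hlp A hA hgood h h' h'') hΔ hdvd σ hσ

end Fermat.Agent.S41.Eis
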